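import Mathlib
import Fermat.Agent.LT.T7.H589.StepTSpec
import Fermat.Agent.LT.T2.H756.HeckeLocal

/-!
# Row LT, tower T7, node T7.L2.1.H2a.A.1 `StepTC981` (cut of helper589), leaf ST.6 = `DOpC589`
# (helper176)

OFF-MAIN.  `dOpC176 F : ST589.DOpC589 F`, VERBATIM, unconditional.

`R(dStep589 v H z d f) χ = satakePow d a b · R(f) χ`.

* `rconv_tStep176`: `R(tStep g) χ (x) = q^{-1/2} ∑_h I(h⁻¹ z)`, `I(c) = ∫ g(y) χ(x y c) dy` (right
  invariance of the measure), `I` is bi-invariant under `GL₂(𝒪_v)` (right invariance of `g`, of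
  `χ` and of the measure), so `I(h⁻¹ z) = I(h)` (`T2.H756.biInv_eq756` of helper756, master
  bytes) and `∑_h I(h) = √q a R(g) χ (x)` (`IsHeckeEigenAt`).
* `rconv_sStep176`: `R(sStep g) χ = b R(g) χ`.
* induction with the recursion of `satakePow`.
-/

set_option autoImplicit false

open AutomorphicForm IsDedekindDomain NumberField MeasureTheory
open scoped ComplexConjugate

noncomputable section

namespace Fermat.Agent.LT.T7.H176

open Fermat.Agent.LT.H556 Fermat.Agent.LT.H556.A0 Fermat.Agent.LT.T7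
open Fermat.Agent.LT.T7.ST589 Fermat.Agent.LT.H129 Fermat.Agent.LT.T2.H756

attribute [local instance] Fermat.Agent.LT.T5.instMeasurableSpaceG

variable {F : Type} [Field F] [NumberField F]

local instance instBorelG176 : BorelSpace (G F) := ⟨rfl⟩

/-- Change of variables for a right invariant measure (no integrability needed). -/
theorem integral_mul_right176 {μ : Measure (G F)} {D : Set (G F)} (hF : T5.IsFrame μ D)
    (c : G F) (f : G F → ℂ) : ∫ y, f (y * c) ∂μ = ∫ y, f y ∂μ := by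
  have hmap : Measure.map (MeasurableEquiv.mulRight c) μ = μ := by
    refine Measure.ext fun A hA => ?_
    rw [MeasurableEquiv.map_apply]
    exact hF.right_inv c A hA
  have h := MeasureTheory.integral_map_equiv (μ := μ) (MeasurableEquiv.mulRight c) f
  rw [hmap] at h
  rw [h]
  rfl

/-- The integrands are integrable. -/
theorem integrable_tr176 {μ : Measure (G F)} [IsFiniteMeasureOnCompacts μ] {g χ : G F → ℂ}
    (hg : Continuous g) (hgs : HasCompactSupport g) (hχ : Continuous χ) (c x c' : G F) :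
    Integrable (fun y => g (y * c) * χ (x * y * c')) μ := by
  have h1 : Continuous (fun y : G F => g (y * c)) := hg.comp (continuous_mul_const c)
  have h2 : Continuous (fun y : G F => χ (x * y * c')) :=
    hχ.comp ((continuous_const_mul x).mul continuous_const)
  have h3 : HasCompactSupport (fun y : G F => g (y * c)) :=
    hgs.comp_homeomorph (Homeomorph.mulRight c)
  exact (h1.mul h2).integrable_of_hasCompactSupport h3.mul_right

section Op

variable {μ : Measure (G F)} {D : Set (G F)} (hF : T5.IsFrame μ D)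
  {𝔫 𝔫₀ : Ideal (𝓞 F)} (hle : 𝔫 ≤ 𝔫₀) {v : HeightOneSpectrum (𝓞 F)} (hv : ¬ v.asIdeal ∣ 𝔫)
  {H : Finset (G F)} {z : G F} (hH : IsHeckeCosetSystem v H) (hz : IsScalarUniformizerAt v z)
  {χ : G F → ℂ} {a b : ℂ} (hχc : Continuous χ)
  (hχinv : ∀ u : G F, InLevelGroup 𝔫₀ u → ∀ g : G F, χ (g * u) = χ g)
  (hχe : IsHeckeEigenAt χ v a b)

include hF in
/-- `R(g(· c)) χ (x) = ∫ g(y) χ(x y c⁻¹) dy`. -/
theorem rconv_tr176 (g : G F → ℂ) (c x : G F) :
    ∫ y, g (y * c) * χ (x * y) ∂μ = ∫ y, g y * χ (x * y * c⁻¹) ∂μ := by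
  have h := integral_mul_right176 hF c (fun y => g y * χ (x * y * c⁻¹))
  rw [← h]
  refine integral_congr_ae (Filter.Eventually.of_forall fun y => ?_)
  show g (y * c) * χ (x * y) = g (y * c) * χ (x * (y * c) * c⁻¹)
  congr 2
  group

include hF hle hv hH hz hχc hχinv hχe in
/-- **The step of `T_v`.** -/
theorem rconv_tStep176 {g : G F → ℂ} (hg : Continuous g) (hgs : HasCompactSupport g)
    (hginv : ∀ u : G F, InLevelGroup 𝔫 u → ∀ y : G F, g (y * u) = g y) (x : G F) :
    T5.Rconv μ (tStep589 v H z g) χ x = a * T5.Rconv μ g χ x := by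
  have : μ.IsHaarMeasure := hF.haar
  have hv₀ : ¬ v.asIdeal ∣ 𝔫₀ := by
    intro h
    exact hv (Ideal.dvd_iff_le.2 (hle.trans (Ideal.dvd_iff_le.1 h)))
  set q : ℂ := ((Real.sqrt (Ideal.absNorm v.asIdeal : ℝ) : ℝ) : ℂ) with hq
  have hq0 : q ≠ 0 := by
    rw [hq]
    have h1 : (Ideal.absNorm v.asIdeal : ℝ) ≠ 0 := by
      have h2 : Ideal.absNorm v.asIdeal ≠ 0 := by
        rw [Ne, Ideal.absNorm_eq_zero_iff]
        exact v.ne_bot
      exact_mod_cast h2
    have h3 : 0 < (Ideal.absNorm v.asIdeal : ℝ) :=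
      lt_of_le_of_ne (Nat.cast_nonneg _) (Ne.symm h1)
    exact_mod_cast (Real.sqrt_pos.2 h3).ne'
  -- the function `I`
  set I : G F → ℂ := fun c => ∫ y, g y * χ (x * y * c) ∂μ with hI
  have hIr : ∀ u : G F, IsLocalMaxCptAt129 v u → ∀ c : G F, I (c * u) = I c := by
    intro u hu c
    have hu₀ : InLevelGroup 𝔫₀ u := inLevelGroup_of_localMaxCpt129 hv₀ hu
    show ∫ y, g y * χ (x * y * (c * u)) ∂μ = ∫ y, g y * χ (x * y * c) ∂μ
    refine integral_congr_ae (Filter.Eventually.of_forall fun y => ?_)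
    show g y * χ (x * y * (c * u)) = g y * χ (x * y * c)
    rw [← mul_assoc, hχinv u hu₀]
  have hIl : ∀ u : G F, IsLocalMaxCptAt129 v u → ∀ c : G F, I (u * c) = I c := by
    intro u hu c
    have hu' : IsLocalMaxCptAt129 v u⁻¹ :=
      ⟨isLocalAtFin_inv129 hu.1, hu.2.2, by rw [inv_inv]; exact hu.2.1⟩
    have hun : InLevelGroup 𝔫 u⁻¹ := inLevelGroup_of_localMaxCpt129 hv hu'
    show ∫ y, g y * χ (x * y * (u * c)) ∂μ = ∫ y, g y * χ (x * y * c) ∂μ
    have h := integral_mul_right176 hF u (fun y => g (y * u⁻¹) * χ (x * y * c))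
    have e1 : (fun y => g (y * u * u⁻¹) * χ (x * (y * u) * c))
        = fun y => g y * χ (x * y * (u * c)) := by
      funext y
      rw [mul_inv_cancel_right]
      congr 2
      group
    have e2 : (fun y => g (y * u⁻¹) * χ (x * y * c)) = fun y => g y * χ (x * y * c) := by
      funext y
      rw [hginv u⁻¹ hun]
    rw [e1, e2] at h
    exact h
  have hIeq : ∀ h ∈ H, I (h⁻¹ * z) = I h := fun h hh =>
    biInv_eq756 I hIl hIr (isHeckeAt_of_mem756 hH hh) hz
  -- the computation
  have hint1 : ∀ h ∈ H, Integrable (fun y => g (y * (z⁻¹ * h)) * χ (x * y)) μ := by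
    intro h _
    have := integrable_tr176 (μ := μ) hg hgs hχc (z⁻¹ * h) x 1
    simpa using this
  have hint2 : ∀ h ∈ H, Integrable (fun y => g y * χ (x * y * h)) μ := by
    intro h _
    have := integrable_tr176 (μ := μ) hg hgs hχc 1 x h
    simpa using this
  have e1 : T5.Rconv μ (tStep589 v H z g) χ x
      = q⁻¹ * ∑ h ∈ H, ∫ y, g (y * (z⁻¹ * h)) * χ (x * y) ∂μ := by
    show ∫ y, (q⁻¹ * ∑ h ∈ H, g (y * z⁻¹ * h)) * χ (x * y) ∂μ = _
    rw [← integral_finsetSum _ hint1, ← integral_const_mul]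
    refine integral_congr_ae (Filter.Eventually.of_forall fun y => ?_)
    show (q⁻¹ * ∑ h ∈ H, g (y * z⁻¹ * h)) * χ (x * y)
      = q⁻¹ * ∑ h ∈ H, g (y * (z⁻¹ * h)) * χ (x * y)
    rw [mul_assoc, Finset.sum_mul]
    simp only [mul_assoc]
  have e2 : ∀ h ∈ H, ∫ y, g (y * (z⁻¹ * h)) * χ (x * y) ∂μ = I h := by
    intro h hh
    rw [rconv_tr176 (χ := χ) hF g (z⁻¹ * h) x, ← hIeq h hh]
    show _ = ∫ y, g y * χ (x * y * (h⁻¹ * z)) ∂μ
    have e : (z⁻¹ * h)⁻¹ = h⁻¹ * z := by group
    rw [e]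
  have e3 : ∑ h ∈ H, I h = q * a * T5.Rconv μ g χ x := by
    show ∑ h ∈ H, ∫ y, g y * χ (x * y * h) ∂μ = q * a * ∫ y, g y * χ (x * y) ∂μ
    rw [← integral_finsetSum _ hint2, ← integral_const_mul]
    refine integral_congr_ae (Filter.Eventually.of_forall fun y => ?_)
    show ∑ h ∈ H, g y * χ (x * y * h) = q * a * (g y * χ (x * y))
    rw [← Finset.mul_sum, hχe.1 H hH (x * y)]
    ring
  rw [e1, Finset.sum_congr rfl e2, e3, ← mul_assoc, ← mul_assoc, inv_mul_cancel₀ hq0, one_mul]

include hF hz hχe in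
/-- **The step of `S_v`.** -/
theorem rconv_sStep176 (g : G F → ℂ) (x : G F) :
    T5.Rconv μ (sStep589 z g) χ x = b * T5.Rconv μ g χ x := by
  show ∫ y, g (y * z⁻¹) * χ (x * y) ∂μ = b * ∫ y, g y * χ (x * y) ∂μ
  rw [rconv_tr176 (χ := χ) hF g z⁻¹ x, ← integral_const_mul]
  refine integral_congr_ae (Filter.Eventually.of_forall fun y => ?_)
  show g y * χ (x * y * z⁻¹⁻¹) = b * (g y * χ (x * y))
  rw [inv_inv, hχe.2 z hz]
  ring

include hχc in
/-- The integrand of `R(tStep g) χ` is integrable. -/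
theorem integrable_tStep176 [IsFiniteMeasureOnCompacts μ] {g : G F → ℂ} (hg : Continuous g)
    (hgs : HasCompactSupport g) (x : G F) :
    Integrable (fun y => tStep589 v H z g y * χ (x * y)) μ := by
  have hint1 : ∀ h ∈ H, Integrable (fun y => g (y * (z⁻¹ * h)) * χ (x * y)) μ := by
    intro h _
    have := integrable_tr176 (μ := μ) hg hgs hχc (z⁻¹ * h) x 1
    simpa using this
  have h := (integrable_finsetSum H hint1).const_mul
    (((Real.sqrt (Ideal.absNorm v.asIdeal : ℝ) : ℝ) : ℂ)⁻¹)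
  refine h.congr (Filter.Eventually.of_forall fun y => ?_)
  show ((Real.sqrt (Ideal.absNorm v.asIdeal : ℝ) : ℝ) : ℂ)⁻¹
      * ∑ h ∈ H, g (y * (z⁻¹ * h)) * χ (x * y)
    = (((Real.sqrt (Ideal.absNorm v.asIdeal : ℝ) : ℝ) : ℂ)⁻¹ * ∑ h ∈ H, g (y * z⁻¹ * h))
      * χ (x * y)
  rw [mul_assoc, Finset.sum_mul]
  simp only [mul_assoc]

include hχc in
/-- The integrand of `R(sStep g) χ` is integrable. -/
theorem integrable_sStep176 [IsFiniteMeasureOnCompacts μ] {g : G F → ℂ} (hg : Continuous g)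
    (hgs : HasCompactSupport g) (x : G F) :
    Integrable (fun y => sStep589 z g y * χ (x * y)) μ := by
  have := integrable_tr176 (μ := μ) hg hgs hχc z⁻¹ x 1
  simpa [sStep589] using this

end Op

/-- **LEAF ST.6 = D-OP**, verbatim. -/
theorem dOpC176 (F : Type) [Field F] [NumberField F] : DOpC589 F := by
  intro R hR 𝔫 𝔫₀ hle v hv H z hH hz f hf hfd χ a b hχc hχinv hχe d x
  have hF := hR.frame
  have : R.μ.IsHaarMeasure := hF.haar
  have key : ∀ d : ℕ,
      (T5.Rconv R.μ (dStep589 v H z d f) χ x = satakePow d a b * T5.Rconv R.μ f χ x) ∧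
      (T5.Rconv R.μ (dStep589 v H z (d + 1) f) χ x
        = satakePow (d + 1) a b * T5.Rconv R.μ f χ x) := by
    intro d
    induction d with
    | zero =>
      refine ⟨?_, ?_⟩
      · show ∫ y, (2 * f y) * χ (x * y) ∂(R.μ) = satakePow 0 a b * ∫ y, f y * χ (x * y) ∂(R.μ)
        rw [satakePow_zero, ← integral_const_mul]
        refine integral_congr_ae (Filter.Eventually.of_forall fun y => ?_)
        show (2 * f y) * χ (x * y) = 2 * (f y * χ (x * y))
        ring
      · rw [satakePow_one]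
        exact rconv_tStep176 hF hle hv hH hz hχc hχinv hχe hf.cont hf.supp
          hf.inv.level_right x
    | succ d ih =>
      refine ⟨ih.2, ?_⟩
      have h1 := hfd (d + 1)
      have h0 := hfd d
      have e : dStep589 v H z (d + 1 + 1) f = fun g =>
          tStep589 v H z (dStep589 v H z (d + 1) f) g - sStep589 z (dStep589 v H z d f) g :=
        rfl
      have hT := rconv_tStep176 hF hle hv hH hz hχc hχinv hχe h1.cont h1.supp
        h1.inv.level_right x
      have hS := rconv_sStep176 hF hz hχe (dStep589 v H z d f) x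
      have hiT := integrable_tStep176 (μ := R.μ) (v := v) (H := H) (z := z) hχc h1.cont
        h1.supp x
      have hiS := integrable_sStep176 (μ := R.μ) (z := z) hχc h0.cont h0.supp x
      have e2 : T5.Rconv R.μ (dStep589 v H z (d + 1 + 1) f) χ x
          = T5.Rconv R.μ (tStep589 v H z (dStep589 v H z (d + 1) f)) χ x
            - T5.Rconv R.μ (sStep589 z (dStep589 v H z d f)) χ x := by
        rw [e]
        show ∫ y, (tStep589 v H z (dStep589 v H z (d + 1) f) y
            - sStep589 z (dStep589 v H z d f) y) * χ (x * y) ∂(R.μ)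
          = ∫ y, tStep589 v H z (dStep589 v H z (d + 1) f) y * χ (x * y) ∂(R.μ)
            - ∫ y, sStep589 z (dStep589 v H z d f) y * χ (x * y) ∂(R.μ)
        rw [← integral_sub hiT hiS]
        refine integral_congr_ae (Filter.Eventually.of_forall fun y => ?_)
        show (tStep589 v H z (dStep589 v H z (d + 1) f) y
            - sStep589 z (dStep589 v H z d f) y) * χ (x * y) = _
        ring
      rw [e2, hT, hS, ih.1, ih.2, satakePow_add_two]
      ring
  exact (key d).1

end Fermat.Agent.LT.T7.H176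

end
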